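import Mathlib.RingTheory.MvPolynomial.Homogeneous
import Mathlib.Algebra.MvPolynomial.Equiv
import Mathlib.Analysis.Complex.Polynomial.Basic
import Mathlib.Analysis.MeanInequalities

/-!
# Gurvits' capacity inequality
-/

set_option autoImplicit false

noncomputable section

open MvPolynomial Finset

namespace Fermat.Agent.Permanent

/-- Homogeneous of degree `n` in `n` variables, without zeros with nonnegative real parts not all
zero, and positive at positive points. -/
def IsPosStable {n : ℕ} (p : MvPolynomial (Fin n) ℝ) : Prop :=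
  p.IsHomogeneous n ∧
    (∀ z : Fin n → ℂ, (∀ j, 0 ≤ (z j).re) → (∃ j, 0 < (z j).re) → aeval z p ≠ 0) ∧
      ∀ x : Fin n → ℝ, (∀ j, 0 < x j) → 0 < eval x p

theorem aeval_smul_of_isHomogeneous {σ S : Type*} [CommRing S] [Algebra ℝ S]
    {p : MvPolynomial σ ℝ} {d : ℕ} (hp : p.IsHomogeneous d) (c : S) (z : σ → S) :
    aeval (fun i => c * z i) p = c ^ d * aeval z p := by
  conv_lhs => rw [p.as_sum]
  conv_rhs => rw [p.as_sum]
  simp only [map_sum, Finset.mul_sum, aeval_monomial]
  refine Finset.sum_congr rfl fun m hm => ?_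
  have hd : m.degree = d := by
    have := hp (mem_support_iff.1 hm)
    simpa [Finsupp.weight_apply, Finsupp.degree_apply, Finsupp.sum] using this
  simp only [Finsupp.prod, mul_pow, Finset.prod_mul_distrib, Finset.prod_pow_eq_pow_sum]
  rw [show ∑ i ∈ m.support, m i = d from hd]
  ring

/-- Fixing all but the first variable. -/
def slice {n : ℕ} {S : Type*} [CommRing S] [Algebra ℝ S] (p : MvPolynomial (Fin (n + 1)) ℝ)
    (z : Fin n → S) : Polynomial S :=
  (finSuccEquiv ℝ n p).map ((aeval z : MvPolynomial (Fin n) ℝ →ₐ[ℝ] S) : _ →+* S)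

theorem eval_slice {n : ℕ} {S : Type*} [CommRing S] [Algebra ℝ S]
    (p : MvPolynomial (Fin (n + 1)) ℝ) (z : Fin n → S) (t : S) :
    (slice p z).eval t = aeval (Fin.cons t z : Fin (n + 1) → S) p := by
  induction p using MvPolynomial.induction_on with
  | C a => simp [slice, finSuccEquiv_apply]
  | add p q hp hq =>
    simp only [slice, map_add, Polynomial.map_add, Polynomial.eval_add] at hp hq ⊢
    rw [hp, hq]
  | mul_X p i hp =>
    simp only [slice, map_mul, Polynomial.map_mul, Polynomial.eval_mul] at hp ⊢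
    rw [hp]
    congr 1
    induction i using Fin.cases with
    | zero => simp [finSuccEquiv_X_zero]
    | succ j => simp [finSuccEquiv_X_succ]

theorem coeff_slice {n : ℕ} {S : Type*} [CommRing S] [Algebra ℝ S]
    (p : MvPolynomial (Fin (n + 1)) ℝ) (z : Fin n → S) (i : ℕ) :
    (slice p z).coeff i = aeval z ((finSuccEquiv ℝ n p).coeff i) :=
  Polynomial.coeff_map _ i

variable {n : ℕ} {p : MvPolynomial (Fin (n + 1)) ℝ}

theorem coeff_finSuccEquiv_eq_zero (hp : p.IsHomogeneous (n + 1)) {i : ℕ} (hi : n + 1 < i) :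
    (finSuccEquiv ℝ n p).coeff i = 0 := by
  ext m
  rw [finSuccEquiv_coeff_coeff, coeff_zero]
  refine hp.coeff_eq_zero ?_
  rw [Finsupp.degree_eq_sum, Fin.sum_univ_succ, Finsupp.cons_zero]
  omega

/-- The slices have degree `n + 1`, with the same leading coefficient. -/
theorem exists_leading (hp : IsPosStable p) : ∃ c : ℝ, c ≠ 0 ∧
    ∀ {S : Type} [CommRing S] [Algebra ℝ S] (z : Fin n → S),
      (slice p z).natDegree ≤ n + 1 ∧ (slice p z).coeff (n + 1) = algebraMap ℝ S c := by
  obtain ⟨hhom, hne, -⟩ := hp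
  set P := finSuccEquiv ℝ n p
  have htop : (P.coeff (n + 1)).IsHomogeneous 0 :=
    hhom.finSuccEquiv_coeff_isHomogeneous (n + 1) 0 (by omega)
  obtain ⟨c, hc⟩ : ∃ c, P.coeff (n + 1) = C c :=
    ⟨_, (MvPolynomial.totalDegree_eq_zero_iff_eq_C).1 (Nat.le_zero.1 htop.totalDegree_le)⟩
  have hdeg : ∀ {S : Type} [CommRing S] [Algebra ℝ S] (z : Fin n → S),
      (slice p z).natDegree ≤ n + 1 ∧ (slice p z).coeff (n + 1) = algebraMap ℝ S c := by
    intro S _ _ z
    refine ⟨Polynomial.natDegree_le_iff_coeff_eq_zero.2 fun i hi => ?_, ?_⟩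
    · rw [coeff_slice, coeff_finSuccEquiv_eq_zero hhom hi, map_zero]
    · rw [coeff_slice, hc, aeval_C]
  refine ⟨c, fun hc0 => ?_, hdeg⟩
  refine hne (Fin.cons 1 (0 : Fin n → ℂ)) (fun j => ?_) ⟨0, by simp⟩ ?_
  · induction j using Fin.cases with
    | zero => simp
    | succ j => simp
  rw [← eval_slice, Polynomial.eval_eq_sum_range' (Nat.lt_succ_of_le (hdeg (0 : Fin n → ℂ)).1)]
  refine Finset.sum_eq_zero fun i hi => ?_
  rcases (Nat.lt_succ_iff.1 (Finset.mem_range.1 hi)).lt_or_eq with hi' | hi'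
  · refine mul_eq_zero_of_left ?_ _
    have h := aeval_smul_of_isHomogeneous
      (hhom.finSuccEquiv_coeff_isHomogeneous i (n + 1 - i) (by omega)) (0 : ℂ) (0 : Fin n → ℂ)
    rw [coeff_slice, zero_pow (by omega), zero_mul] at *
    simpa only [zero_mul] using! h
  · rw [hi', (hdeg _).2, hc0, map_zero, zero_mul]

theorem coeff_one_prod_X_add {ι : Type*} [DecidableEq ι] (s : Finset ι) (u : ι → ℂ)
    (hu : ∀ i ∈ s, u i ≠ 0) :
    (∏ i ∈ s, (Polynomial.X + Polynomial.C (u i))).coeff 1 =
      (∏ i ∈ s, u i) * ∑ i ∈ s, (u i)⁻¹ := by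
  induction s using Finset.induction_on with
  | empty => simp [Polynomial.coeff_one]
  | insert a s ha ih =>
    rw [Finset.prod_insert ha, Finset.prod_insert ha, Finset.sum_insert ha, add_mul,
      Polynomial.coeff_add, Polynomial.coeff_X_mul, Polynomial.coeff_C_mul,
      ih fun i hi => hu i (Finset.mem_insert_of_mem hi), Polynomial.coeff_zero_prod]
    have := hu a (Finset.mem_insert_self a s)
    simp only [Polynomial.coeff_add, Polynomial.coeff_X_zero, Polynomial.coeff_C_zero, zero_add]
    field_simp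

/-- The roots of a slice, negated. -/
theorem exists_slice_roots {c : ℝ} (hc : c ≠ 0)
    (hdeg : ∀ {S : Type} [CommRing S] [Algebra ℝ S] (z : Fin n → S),
      (slice p z).natDegree ≤ n + 1 ∧ (slice p z).coeff (n + 1) = algebraMap ℝ S c)
    (z : Fin n → ℂ) :
    ∃ u : Fin (n + 1) → ℂ, slice p z =
      Polynomial.C (c : ℂ) * ∏ i, (Polynomial.X + Polynomial.C (u i)) := by
  obtain ⟨hle, hlead⟩ := hdeg z
  rw [show algebraMap ℝ ℂ c = (c : ℂ) from rfl] at hlead
  have hd : (slice p z).natDegree = n + 1 := le_antisymm hle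
    (Polynomial.le_natDegree_of_ne_zero (by rw [hlead]; exact Complex.ofReal_ne_zero.2 hc))
  have hsp : (slice p z).Splits := IsAlgClosed.splits _
  set l := (slice p z).roots.toList
  have hl : l.length = n + 1 := by
    rw [Multiset.length_toList, ← hsp.natDegree_eq_card_roots, hd]
  refine ⟨fun i => -(l.get (i.cast hl.symm)), ?_⟩
  conv_lhs => rw [hsp.eq_prod_roots]
  rw [Polynomial.leadingCoeff, hd, hlead, ← Multiset.coe_toList (slice p z).roots,
    Multiset.map_coe, Multiset.prod_coe]
  congr 1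
  rw [← List.prod_ofFn]
  congr 1
  refine List.ext_getElem (by simp [l, hl]) fun i h1 h2 => ?_
  rw [List.getElem_map, List.getElem_ofFn]
  simp [l, sub_eq_add_neg]

/-- The derivative in the first variable, at zero. -/
def dropFirst (p : MvPolynomial (Fin (n + 1)) ℝ) : MvPolynomial (Fin n) ℝ :=
  (finSuccEquiv ℝ n p).coeff 1

theorem slice_root_re (hp : IsPosStable p) {z : Fin n → ℂ} (hz : ∀ j, 0 ≤ (z j).re)
    (hz' : ∃ j, 0 < (z j).re) {t : ℂ} (ht : (slice p z).eval t = 0) : t.re < 0 := by
  by_contra h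
  rw [not_lt] at h
  rw [eval_slice] at ht
  obtain ⟨j, hj⟩ := hz'
  refine hp.2.1 (Fin.cons t z) (fun k => ?_) ⟨j.succ, by simpa using hj⟩ ht
  induction k using Fin.cases with
  | zero => simpa using h
  | succ k => simpa using hz k

theorem eval_ofReal {σ : Type*} (x : σ → ℝ) (q : MvPolynomial σ ℝ) :
    aeval (fun j => (x j : ℂ)) q = ((eval x q : ℝ) : ℂ) := by
  rw [show (fun j => (x j : ℂ)) = algebraMap ℝ ℂ ∘ x from rfl]
  rw [aeval_algebraMap_apply, aeval_eq_eval]; rfl

theorem slice_root_real (hp : IsPosStable p) (hn : n ≠ 0) {x : Fin n → ℝ}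
    (hx : ∀ j, 0 < x j) {t : ℂ}
    (ht : (slice p (fun j => (x j : ℂ))).eval t = 0) : t.im = 0 ∧ t.re ≤ 0 := by
  have him : t.im = 0 := by
    by_contra him
    set lam : ℂ := ⟨1, t.re / t.im⟩
    rw [eval_slice] at ht
    have h := aeval_smul_of_isHomogeneous hp.1 lam (Fin.cons t fun j => (x j : ℂ))
    rw [ht, mul_zero] at h
    have hre : (lam * t).re = 0 := by
      simp only [Complex.mul_re, lam]
      field_simp
      ring
    refine hp.2.1 _ (fun k => ?_) ⟨(⟨0, Nat.pos_of_ne_zero hn⟩ : Fin n).succ, ?_⟩ h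
    · induction k using Fin.cases with
      | zero => simp only [Fin.cons_zero, hre]; rfl
      | succ k =>
        simp only [Fin.cons_succ, Complex.mul_re, lam, Complex.ofReal_re, Complex.ofReal_im,
          mul_zero, sub_zero, one_mul]
        exact (hx k).le
    · simp only [Fin.cons_succ, Complex.mul_re, lam, Complex.ofReal_re, Complex.ofReal_im,
        mul_zero, sub_zero, one_mul]
      exact hx _
  refine ⟨him, ?_⟩
  by_contra h
  rw [not_le] at h
  rw [eval_slice] at ht
  refine hp.2.1 (Fin.cons t fun j => (x j : ℂ)) (fun k => ?_) ⟨0, by simpa using h⟩ ht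
  induction k using Fin.cases with
  | zero => simpa using h.le
  | succ k => simpa using (hx k).le

/-- The slice over a positive point, factored. -/
theorem exists_real_factor (hp : IsPosStable p) (hn : n ≠ 0) {x : Fin n → ℝ}
    (hx : ∀ j, 0 < x j) : ∃ (c : ℝ) (u : Fin (n + 1) → ℝ), 0 < c ∧ (∀ i, 0 < u i) ∧
      eval x (dropFirst p) = c * (∏ i, u i) * ∑ i, (u i)⁻¹ ∧
        ∀ t : ℝ, eval (Fin.cons t x : Fin (n + 1) → ℝ) p = c * ∏ i, (t + u i) := by
  obtain ⟨c, hc, hdeg⟩ := exists_leading hp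
  set z : Fin n → ℂ := fun j => (x j : ℂ)
  obtain ⟨u, hu⟩ := exists_slice_roots hc hdeg z
  have hroot : ∀ i, (slice p z).eval (-u i) = 0 := fun i => by
    rw [hu, Polynomial.eval_mul, Polynomial.eval_prod,
      Finset.prod_eq_zero (Finset.mem_univ i) (by simp), mul_zero]
  have hu' : ∀ i, u i = ((u i).re : ℂ) ∧ 0 < (u i).re := fun i => by
    have h1 := slice_root_real hp hn hx (hroot i)
    have h2 := slice_root_re hp (z := z) (fun j => (hx j).le)
      ⟨⟨0, Nat.pos_of_ne_zero hn⟩, hx _⟩ (hroot i)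
    simp only [Complex.neg_im, neg_eq_zero, Complex.neg_re, neg_lt_zero] at h1 h2
    exact ⟨Complex.ext (by simp) (by simp [h1.1]), h2⟩
  set v : Fin (n + 1) → ℝ := fun i => (u i).re
  have huv : ∀ i, u i = (v i : ℂ) := fun i => (hu' i).1
  have heval : ∀ t : ℝ, eval (Fin.cons t x : Fin (n + 1) → ℝ) p = c * ∏ i, (t + v i) := fun t => by
    apply Complex.ofReal_injective
    rw [← eval_ofReal]
    have h := eval_slice p z (t : ℂ)
    rw [hu, Polynomial.eval_mul, Polynomial.eval_prod] at h
    simp only [Polynomial.eval_C, Polynomial.eval_add, Polynomial.eval_X, huv] at h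
    rw [show (fun j => ((Fin.cons t x : Fin (n + 1) → ℝ) j : ℂ)) = Fin.cons (t : ℂ) z from
      funext fun j => by induction j using Fin.cases <;> simp [z], ← h]
    push_cast
    ring
  refine ⟨c, v, ?_, fun i => (hu' i).2, ?_, heval⟩
  · have h := heval 1
    have h1 : 0 < eval (Fin.cons (1 : ℝ) x : Fin (n + 1) → ℝ) p := hp.2.2 _ fun j => by
      induction j using Fin.cases with
      | zero => simp
      | succ j => simpa using hx j
    rw [h] at h1
    exact pos_of_mul_pos_left h1 (Finset.prod_nonneg fun i _ => by linarith [(hu' i).2])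
  · apply Complex.ofReal_injective
    rw [← eval_ofReal, dropFirst, ← coeff_slice, hu, Polynomial.coeff_C_mul,
      coeff_one_prod_X_add _ _ fun i _ => by rw [huv]; exact_mod_cast (hu' i).2.ne']
    simp only [huv]
    push_cast
    ring

theorem eval_pos_dropFirst (hp : IsPosStable p) (hn : n ≠ 0) {x : Fin n → ℝ} (hx : ∀ j, 0 < x j) :
    0 < eval x (dropFirst p) := by
  obtain ⟨c, u, hc, hu, he, -⟩ := exists_real_factor hp hn hx
  rw [he]
  exact mul_pos (mul_pos hc (Finset.prod_pos fun i _ => hu i))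
    (Finset.sum_pos (fun i _ => inv_pos.2 (hu i)) Finset.univ_nonempty)

/-- The case of a single variable. -/
theorem eval_dropFirst_zero {p : MvPolynomial (Fin (0 + 1)) ℝ} (hp : IsPosStable p)
    (x : Fin 0 → ℝ) : eval x (dropFirst p) = eval (fun _ => (1 : ℝ)) p := by
  obtain ⟨c, hc, hdeg⟩ := exists_leading hp
  have h4 := eval_slice p x (1 : ℝ)
  rw [show (Fin.cons (1 : ℝ) x : Fin (0 + 1) → ℝ) = fun _ => (1 : ℝ) from
      funext fun j => by rw [Fin.eq_zero j]; simp,
    Polynomial.eval_eq_sum_range' (Nat.lt_succ_of_le (hdeg x).1), Finset.sum_range_succ,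
    Finset.sum_range_one] at h4
  have h5 : (slice p x).coeff 0 = 0 := by
    have h := aeval_smul_of_isHomogeneous
      (hp.1.finSuccEquiv_coeff_isHomogeneous 0 1 (by omega)) (0 : ℝ) x
    rw [pow_one, zero_mul] at h
    rw [coeff_slice]
    rwa [show (fun i => (0 : ℝ) * x i) = x from Subsingleton.elim _ _] at h
  rw [h5] at h4
  simp only [coeff_slice, aeval_eq_eval, zero_mul, zero_add, pow_one, one_pow, mul_one] at h4
  exact h4

theorem isPosStable_dropFirst (hp : IsPosStable p) : IsPosStable (dropFirst p) := by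
  refine ⟨hp.1.finSuccEquiv_coeff_isHomogeneous 1 n (by omega), fun z hz hz' h => ?_,
    fun x hx => ?_⟩
  · obtain ⟨c, hc, hdeg⟩ := exists_leading hp
    obtain ⟨u, hu⟩ := exists_slice_roots hc hdeg z
    have hre : ∀ i, 0 < (u i).re := fun i => by
      have h := slice_root_re hp hz hz' (t := -u i) (by
        rw [hu, Polynomial.eval_mul, Polynomial.eval_prod,
          Finset.prod_eq_zero (Finset.mem_univ i) (by simp), mul_zero])
      simpa using h
    have hne : ∀ i, u i ≠ 0 := fun i h0 => by simpa [h0] using hre i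
    rw [dropFirst, ← coeff_slice, hu, Polynomial.coeff_C_mul,
      coeff_one_prod_X_add _ _ fun i _ => hne i] at h
    have hsum : 0 < (∑ i, (u i)⁻¹).re := by
      rw [Complex.re_sum]
      exact Finset.sum_pos (fun i _ => by
        rw [Complex.inv_re]; exact div_pos (hre i) (Complex.normSq_pos.2 (hne i)))
        Finset.univ_nonempty
    refine mul_ne_zero (Complex.ofReal_ne_zero.2 hc) (mul_ne_zero
      (Finset.prod_ne_zero_iff.2 fun i _ => hne i) fun h0 => ?_) h
    rw [h0] at hsum
    simp at hsum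
  · rcases eq_or_ne n 0 with hn | hn
    · subst hn
      rw [eval_dropFirst_zero hp]
      exact hp.2.2 _ fun _ => one_pos
    · exact eval_pos_dropFirst hp hn hx

/-- A lower bound by the product of the variables. -/
def HasCapacity {n : ℕ} (p : MvPolynomial (Fin n) ℝ) (c : ℝ) : Prop :=
  ∀ x : Fin n → ℝ, (∀ j, 0 < x j) → c * ∏ j, x j ≤ eval x p

/-- **The step of Gurvits**. -/
theorem hasCapacity_dropFirst (hp : IsPosStable p) {c₀ : ℝ} (hc : HasCapacity p c₀) :
    HasCapacity (dropFirst p) (((n : ℝ) / (n + 1)) ^ n * c₀) := by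
  intro x hx
  rcases eq_or_ne n 0 with hn | hn
  · subst hn
    have h := hc (fun _ => (1 : ℝ)) fun _ => one_pos
    rw [eval_dropFirst_zero hp]
    simpa using h
  obtain ⟨c, u, hcpos, hu, he, heval⟩ := exists_real_factor hp hn hx
  set S := ∑ i, (u i)⁻¹
  have hS : 0 < S := Finset.sum_pos (fun i _ => inv_pos.2 (hu i)) Finset.univ_nonempty
  have hn' : (0 : ℝ) < n := Nat.cast_pos.2 (Nat.pos_of_ne_zero hn)
  set t : ℝ := ((n : ℝ) + 1) / (n * S)
  have ht : 0 < t := by positivity
  have h := hc (Fin.cons t x) fun j => by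
    induction j using Fin.cases with
    | zero => simpa using ht
    | succ j => simpa using hx j
  rw [Fin.prod_univ_succ, heval] at h
  simp only [Fin.cons_zero, Fin.cons_succ] at h
  set w : Fin (n + 1) → ℝ := fun i => 1 + t * (u i)⁻¹
  have hw : ∀ i, 0 ≤ w i := fun i => by have := hu i; positivity
  have hamgm : ∏ i, w i ≤ (((n : ℝ) + 1) / n) ^ (n + 1) := by
    have hn1 : ((n + 1 : ℕ) : ℝ) ≠ 0 := by positivity
    have h1 := Real.geom_mean_le_arith_mean_weighted Finset.univ
      (fun _ : Fin (n + 1) => (((n + 1 : ℕ) : ℝ))⁻¹) w (fun _ _ => by positivity)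
      (by rw [Finset.sum_const, card_univ, Fintype.card_fin, nsmul_eq_mul, mul_inv_cancel₀ hn1])
      (fun i _ => hw i)
    rw [Real.finset_prod_rpow _ _ fun i _ => hw i, ← Finset.mul_sum] at h1
    have h2 := pow_le_pow_left₀ (Real.rpow_nonneg (Finset.prod_nonneg fun i _ => hw i) _) h1 (n + 1)
    rw [Real.rpow_inv_natCast_pow (Finset.prod_nonneg fun i _ => hw i) n.succ_ne_zero] at h2
    refine h2.trans (le_of_eq ?_)
    congr 1
    simp only [w, Finset.sum_add_distrib, ← Finset.mul_sum, Finset.sum_const, card_univ,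
      Fintype.card_fin, nsmul_eq_mul, mul_one]
    rw [show (∑ i, (u i)⁻¹) = S from rfl]
    simp only [t]
    push_cast
    field_simp
  have hprod : c * ∏ i, (t + u i) = c * (∏ i, u i) * ∏ i, w i := by
    rw [mul_assoc, ← Finset.prod_mul_distrib]
    congr 1
    refine Finset.prod_congr rfl fun i _ => ?_
    have := hu i
    simp only [w]
    field_simp
    ring
  rw [hprod] at h
  have hcu : 0 < c * ∏ i, u i := mul_pos hcpos (Finset.prod_pos fun i _ => hu i)
  have h' := h.trans (mul_le_mul_of_nonneg_left hamgm hcu.le)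
  rw [he]
  set P := ∏ i, x i
  set R := c * ∏ i, u i
  have e : (((n : ℝ) + 1) / n) ^ (n + 1) * ((n : ℝ) / (n + 1)) ^ n = ((n : ℝ) + 1) / n := by
    rw [pow_succ', mul_assoc, ← mul_pow, div_mul_div_cancel₀ hn'.ne', div_self (by positivity),
      one_pow, mul_one]
  have h'' := mul_le_mul_of_nonneg_right h' (show (0 : ℝ) ≤ ((n : ℝ) / (n + 1)) ^ n / t by
    positivity)
  calc ((n : ℝ) / (n + 1)) ^ n * c₀ * P
      = c₀ * (t * P) * (((n : ℝ) / (n + 1)) ^ n / t) := by field_simp
    _ ≤ R * (((n : ℝ) + 1) / n) ^ (n + 1) * (((n : ℝ) / (n + 1)) ^ n / t) := h''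
    _ = R * S := by
        rw [mul_assoc, ← mul_div_assoc, e]
        simp only [t]
        field_simp

/-- The exponent of the product of all variables. -/
def onesVec (n : ℕ) : Fin n →₀ ℕ :=
  Finsupp.equivFunOnFinite.symm fun _ => 1

/-- **Gurvits' capacity theorem.** -/
theorem coeff_ge_of_hasCapacity : ∀ (n : ℕ) (p : MvPolynomial (Fin n) ℝ) (c : ℝ), IsPosStable p →
    HasCapacity p c → c * (n.factorial / (n : ℝ) ^ n) ≤ coeff (onesVec n) p := by
  intro n
  induction n with
  | zero =>
    intro p c hp hc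
    have h := hc (fun _ => 1) fun _ => one_pos
    obtain ⟨a, rfl⟩ : ∃ a, p = C a :=
      ⟨_, MvPolynomial.totalDegree_eq_zero_iff_eq_C.1 (Nat.le_zero.1 hp.1.totalDegree_le)⟩
    simp only [Finset.univ_eq_empty, Finset.prod_empty, mul_one, eval_C] at h
    rw [Subsingleton.elim (onesVec 0) 0, coeff_C, if_pos rfl]
    simpa using h
  | succ n ih =>
    intro p c hp hc
    have h := ih _ _ (isPosStable_dropFirst hp) (hasCapacity_dropFirst hp hc)
    rw [dropFirst, finSuccEquiv_coeff_coeff,
      show (onesVec n).cons 1 = onesVec (n + 1) by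
        ext j
        induction j using Fin.cases <;> simp [onesVec]] at h
    refine le_trans (le_of_eq ?_) h
    rw [Nat.factorial_succ]
    rcases eq_or_ne n 0 with hn | hn
    · subst hn; simp
    · have : (0 : ℝ) < n := Nat.cast_pos.2 (Nat.pos_of_ne_zero hn)
      push_cast
      rw [div_pow, pow_succ]
      field_simp

end Fermat.Agent.Permanent
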