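import Fermat.Agent.Permanent.Capacity
import Mathlib.LinearAlgebra.Matrix.Permanent
import Mathlib.Analysis.Convex.DoublyStochasticMatrix
import Mathlib.Topology.Algebra.Order.Field
import Mathlib.Topology.Instances.Matrix

/-!
# Van der Waerden's permanent conjecture and its consequences
-/

set_option autoImplicit false

noncomputable section

open MvPolynomial Finset Filter
open scoped Topology

namespace Fermat.Agent.Permanent

variable {n : ℕ}

/-- The product of the linear forms of the rows. -/
def rowsPoly (A : Matrix (Fin n) (Fin n) ℝ) : MvPolynomial (Fin n) ℝ :=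
  ∏ i, ∑ j, C (A i j) * X j

theorem coeff_rowsPoly (A : Matrix (Fin n) (Fin n) ℝ) :
    coeff (onesVec n) (rowsPoly A) = A.permanent := by
  classical
  have hexp : ∀ f : Fin n → Fin n,
      ∑ i, Finsupp.single (f i) 1 = onesVec n ↔ Function.Bijective f := fun f => by
    refine ⟨fun h => Finite.surjective_iff_bijective.1 fun j => ?_, fun h => ?_⟩
    · have := congrArg (fun v : Fin n →₀ ℕ => v j) h
      simp [onesVec, Finsupp.single_apply] at this
      by_contra hj
      push Not at hj
      rw [Finset.filter_false_of_mem fun i _ => hj i] at this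
      simp at this
    · ext j
      rw [Finsupp.finset_sum_apply]
      refine ((Equiv.ofBijective f h).sum_comp fun k => Finsupp.single k (1 : ℕ) j).trans ?_
      simp [onesVec, Finsupp.single_apply]
  rw [rowsPoly, Finset.prod_univ_sum, coeff_sum, ← Matrix.permanent_transpose]
  simp only [Fintype.piFinset_univ, C_mul_X_eq_monomial]
  simp only [← monomial_sum_prod, coeff_monomial, hexp]
  rw [← Finset.sum_filter, Matrix.permanent]
  refine (Finset.sum_bij (fun (σ : Equiv.Perm (Fin n)) _ => ⇑σ)
    (fun σ _ => Finset.mem_filter.2 ⟨Finset.mem_univ _, σ.bijective⟩)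
    (fun σ _ τ _ h => Equiv.coe_fn_injective h) (fun f hf => ?_) fun σ _ => rfl).symm
  exact ⟨Equiv.ofBijective f (Finset.mem_filter.1 hf).2, Finset.mem_univ _, rfl⟩

theorem isPosStable_rowsPoly {A : Matrix (Fin n) (Fin n) ℝ} (hA : ∀ i j, 0 < A i j) :
    IsPosStable (rowsPoly A) := by
  refine ⟨?_, fun z hz hz' => ?_, fun x hx => ?_⟩
  · have h := IsHomogeneous.prod (Finset.univ : Finset (Fin n)) (fun i => ∑ j, C (A i j) * X j)
      (fun _ => 1) fun i _ => IsHomogeneous.sum _ _ _ fun j _ =>
        (isHomogeneous_X ℝ j).C_mul (A i j)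
    simpa [rowsPoly] using h
  · obtain ⟨j, hj⟩ := hz'
    simp only [rowsPoly, map_prod, map_sum, map_mul, aeval_C, aeval_X]
    refine Finset.prod_ne_zero_iff.2 fun i _ h => ?_
    have h2 : 0 < (∑ k, (A i k : ℂ) * z k).re := by
      rw [Complex.re_sum]
      refine Finset.sum_pos' (fun k _ => ?_) ⟨j, Finset.mem_univ _, ?_⟩ <;>
        rw [Complex.re_ofReal_mul]
      · exact mul_nonneg (hA i k).le (hz k)
      · exact mul_pos (hA i j) hj
    rw [show (∑ k, (A i k : ℂ) * z k) = 0 from h] at h2
    simp at h2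
  · simp only [rowsPoly, map_prod, map_sum, map_mul, eval_C, eval_X]
    exact Finset.prod_pos fun i _ => Finset.sum_pos (fun j _ => mul_pos (hA i j) (hx j))
      ⟨i, Finset.mem_univ i⟩

theorem hasCapacity_rowsPoly {A : Matrix (Fin n) (Fin n) ℝ} (hA : A ∈ doublyStochastic ℝ (Fin n)) :
    HasCapacity (rowsPoly A) 1 := by
  obtain ⟨h0, hr, hc⟩ := mem_doublyStochastic_iff_sum.1 hA
  intro x hx
  simp only [rowsPoly, map_prod, map_sum, map_mul, eval_C, eval_X, one_mul]
  calc ∏ j, x j = ∏ j, ∏ i, x j ^ A i j := Finset.prod_congr rfl fun j _ => by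
        rw [← Real.rpow_sum_of_pos (hx j), hc j, Real.rpow_one]
    _ = ∏ i, ∏ j, x j ^ A i j := Finset.prod_comm
    _ ≤ ∏ i, ∑ j, A i j * x j := Finset.prod_le_prod
        (fun i _ => Finset.prod_nonneg fun j _ => Real.rpow_nonneg (hx j).le _) fun i _ =>
        Real.geom_mean_le_arith_mean_weighted _ _ _ (fun j _ => h0 i j) (hr i) fun j _ => (hx j).le

theorem permanent_ge_fin {A : Matrix (Fin n) (Fin n) ℝ} (hA : A ∈ doublyStochastic ℝ (Fin n)) :
    (n.factorial : ℝ) / (n : ℝ) ^ n ≤ A.permanent := by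
  rcases Nat.eq_zero_or_pos n with hn | hn
  · subst hn; simp [Matrix.permanent_isEmpty]
  obtain ⟨h0, hr, hc⟩ := mem_doublyStochastic_iff_sum.1 hA
  have hn' : (0 : ℝ) < n := Nat.cast_pos.2 hn
  set B : ℝ → Matrix (Fin n) (Fin n) ℝ := fun ε => Matrix.of fun i j => (1 - ε) * A i j + ε / n
  have hcont : Tendsto (fun ε => (B ε).permanent) (𝓝[>] 0) (𝓝 A.permanent) := by
    have h : Continuous fun ε => (B ε).permanent := by
      simp only [Matrix.permanent, B, Matrix.of_apply]
      fun_prop
    have e : B 0 = A := by ext i j; simp [B]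
    exact (h.tendsto' 0 _ (by rw [e])).mono_left nhdsWithin_le_nhds
  refine ge_of_tendsto hcont ?_
  filter_upwards [self_mem_nhdsWithin, (eventually_lt_nhds one_pos).filter_mono nhdsWithin_le_nhds]
    with ε hε hε1
  replace hε : 0 < ε := hε
  have hB : B ε ∈ doublyStochastic ℝ (Fin n) := by
    refine mem_doublyStochastic_iff_sum.2 ⟨fun i j => ?_, fun i => ?_, fun j => ?_⟩
    · exact add_nonneg (mul_nonneg (by linarith) (h0 i j)) (by positivity)
    · simp only [B, Matrix.of_apply, Finset.sum_add_distrib, ← Finset.mul_sum, hr, Finset.sum_const,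
        card_univ, Fintype.card_fin, nsmul_eq_mul]
      field_simp
      ring
    · simp only [B, Matrix.of_apply, Finset.sum_add_distrib, ← Finset.mul_sum, hc, Finset.sum_const,
        card_univ, Fintype.card_fin, nsmul_eq_mul]
      field_simp
      ring
  have h := coeff_ge_of_hasCapacity n _ 1 (isPosStable_rowsPoly (A := B ε) fun i j =>
    add_pos_of_nonneg_of_pos (mul_nonneg (by linarith) (h0 i j)) (by positivity))
    (hasCapacity_rowsPoly hB)
  rwa [one_mul, coeff_rowsPoly] at h

theorem permanent_reindex {m m' : Type*} [Fintype m] [DecidableEq m] [Fintype m'] [DecidableEq m']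
    (e : m' ≃ m) (A : Matrix m m ℝ) : (A.submatrix e e).permanent = A.permanent := by
  simp only [Matrix.permanent, Matrix.submatrix_apply]
  rw [← e.permCongr.sum_comp (fun σ => ∏ i, A (σ i) i)]
  refine Finset.sum_congr rfl fun σ _ => ?_
  rw [← e.prod_comp (fun i => A (e.permCongr σ i) i)]
  simp

/-- **Van der Waerden's conjecture.** -/
theorem permanent_ge {m : Type*} [Fintype m] [DecidableEq m] {A : Matrix m m ℝ}
    (hA : A ∈ doublyStochastic ℝ m) :
    ((Fintype.card m).factorial : ℝ) / (Fintype.card m : ℝ) ^ Fintype.card m ≤ A.permanent := by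
  set e := (Fintype.equivFin m).symm
  rw [← permanent_reindex e A]
  obtain ⟨h0, hr, hc⟩ := mem_doublyStochastic_iff_sum.1 hA
  exact permanent_ge_fin (mem_doublyStochastic_iff_sum.2 ⟨fun i j => h0 _ _,
    fun i => by simp only [Matrix.submatrix_apply]; rw [e.sum_comp (fun j => A (e i) j), hr],
    fun j => by simp only [Matrix.submatrix_apply]; rw [e.sum_comp (fun i => A i (e j)), hc]⟩)

/-- Counting the bijections inside a regular relation. -/
theorem card_matchings_ge {m : Type*} [Fintype m] [DecidableEq m] (R : m → m → Prop)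
    [DecidableRel R] {k : ℕ} (hr : ∀ i, #{j | R i j} = k) (hc : ∀ j, #{i | R i j} = k) :
    ((Fintype.card m).factorial : ℝ) * ((k : ℝ) / Fintype.card m) ^ Fintype.card m ≤
      Nat.card {σ : Equiv.Perm m // ∀ j, R (σ j) j} := by
  classical
  rcases Nat.eq_zero_or_pos k with hk | hk
  · rcases isEmpty_or_nonempty m with hm | hm
    · simp [Fintype.card_eq_zero]
    · simp [hk, Fintype.card_ne_zero]
  set M : Matrix m m ℝ := Matrix.of fun i j => if R i j then 1 else 0
  have hM : (k : ℝ)⁻¹ • M ∈ doublyStochastic ℝ m := by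
    refine mem_doublyStochastic_iff_sum.2 ⟨fun i j => ?_, fun i => ?_, fun j => ?_⟩
    · simp only [Matrix.smul_apply, M, Matrix.of_apply, smul_eq_mul]
      split_ifs <;> positivity
    · simp only [Matrix.smul_apply, M, Matrix.of_apply, smul_eq_mul, ← Finset.mul_sum,
        Finset.sum_boole, hr]
      rw [inv_mul_cancel₀ (Nat.cast_ne_zero.2 hk.ne')]
    · simp only [Matrix.smul_apply, M, Matrix.of_apply, smul_eq_mul, ← Finset.mul_sum,
        Finset.sum_boole, hc]
      rw [inv_mul_cancel₀ (Nat.cast_ne_zero.2 hk.ne')]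
  have h := permanent_ge hM
  rw [Matrix.permanent_smul] at h
  have hperm : M.permanent = Nat.card {σ : Equiv.Perm m // ∀ j, R (σ j) j} := by
    rw [Matrix.permanent, Nat.card_eq_fintype_card, Fintype.card_subtype, ← Finset.sum_boole]
    refine Finset.sum_congr rfl fun σ _ => ?_
    simp only [M, Matrix.of_apply, Finset.prod_boole, Finset.mem_univ, true_implies]
  rw [hperm, inv_pow, ← div_eq_inv_mul, le_div_iff₀ (by positivity)] at h
  refine le_trans (le_of_eq ?_) h
  rw [div_pow, mul_div_assoc', mul_comm (_ / _), mul_div_assoc']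
  ring

/-- Latin rectangles with `k` rows. -/
def Rectangle (n k : ℕ) : Type :=
  {f : Fin k → Equiv.Perm (Fin n) // ∀ j, Function.Injective fun i => f i j}

instance (n k : ℕ) : Finite (Rectangle n k) := Subtype.finite

/-- A new last row. -/
def rectangleSucc (n k : ℕ) :
    (Σ f : Rectangle n k, {σ : Equiv.Perm (Fin n) // ∀ j, ∀ i, f.1 i j ≠ σ j}) →
      Rectangle n (k + 1) := fun p =>
  ⟨Fin.snoc p.1.1 p.2.1, fun j => by
    rw [show (fun i => (Fin.snoc p.1.1 p.2.1 : Fin (k + 1) → Equiv.Perm (Fin n)) i j) =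
      Fin.snoc (fun i => p.1.1 i j) (p.2.1 j) from funext fun i => by
        induction i using Fin.lastCases <;> simp]
    exact Fin.snoc_injective_iff.2 ⟨p.1.2 j, fun ⟨i, hi⟩ => p.2.2 j i hi⟩⟩

theorem card_rectangle_succ (k : ℕ) :
    (Nat.card (Rectangle n k) : ℝ) * ((n.factorial : ℝ) * (((n - k : ℕ) : ℝ) / n) ^ n) ≤
      Nat.card (Rectangle n (k + 1)) := by
  classical
  have : Fintype (Rectangle n k) := Fintype.ofFinite _
  have hinj : Function.Injective (rectangleSucc n k) := by
    rintro ⟨⟨f, hf⟩, ⟨σ, hσ⟩⟩ ⟨⟨f', hf'⟩, ⟨σ', hσ'⟩⟩ h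
    have h' : (Fin.snoc f σ : Fin (k + 1) → Equiv.Perm (Fin n)) = Fin.snoc f' σ' :=
      congrArg Subtype.val h
    obtain ⟨rfl, rfl⟩ := Fin.snoc_inj.1 h'
    rfl
  have h := Nat.card_le_card_of_injective _ hinj
  rw [Nat.card_sigma] at h
  refine le_trans ?_ (Nat.cast_le.2 h)
  rw [Nat.cast_sum, Nat.card_eq_fintype_card, ← nsmul_eq_mul, ← Finset.card_univ]
  refine Finset.card_nsmul_le_sum _ _ _ fun f _ => ?_
  have hcols : ∀ j, #{s | ∀ i, f.1 i j ≠ s} = n - k := fun j => by
    rw [show ({s | ∀ i, f.1 i j ≠ s} : Finset (Fin n)) = (univ.image fun i => f.1 i j)ᶜ by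
      ext s; simp]
    rw [card_compl, card_image_of_injective _ (f.2 j)]
    simp
  have hrows : ∀ s, #{j | ∀ i, f.1 i j ≠ s} = n - k := fun s => by
    rw [show ({j | ∀ i, f.1 i j ≠ s} : Finset (Fin n)) = (univ.image fun i => (f.1 i).symm s)ᶜ by
      ext j
      simp only [Finset.mem_filter, Finset.mem_univ, true_and, Finset.mem_compl, Finset.mem_image,
        not_exists]
      exact forall_congr' fun i => not_congr (eq_comm.trans (Equiv.symm_apply_eq _).symm)]
    rw [card_compl, card_image_of_injective _ fun i i' h => f.2 ((f.1 i).symm s) (by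
      simp only at h ⊢
      rw [Equiv.apply_symm_apply, h, Equiv.apply_symm_apply])]
    simp
  simpa using card_matchings_ge (fun s j => ∀ i, f.1 i j ≠ s) hrows hcols

theorem card_rectangle_ge : ∀ k ≤ n,
    ∏ i ∈ range k, ((n.factorial : ℝ) * (((n - i : ℕ) : ℝ) / n) ^ n) ≤
      Nat.card (Rectangle n k) := by
  intro k
  induction k with
  | zero =>
    intro _
    have : Nonempty (Rectangle n 0) := ⟨⟨Fin.elim0, fun j i => i.elim0⟩⟩
    simpa using (Nat.one_le_cast.2 Nat.card_pos : (1 : ℝ) ≤ Nat.card (Rectangle n 0))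
  | succ k ih =>
    intro hk
    rw [Finset.prod_range_succ]
    exact (mul_le_mul_of_nonneg_right (ih (by omega)) (by positivity)).trans
      (card_rectangle_succ k)

/-- **Many Latin squares.** -/
theorem card_latinSquare_ge (n : ℕ) :
    (n.factorial : ℝ) ^ (2 * n) / (n : ℝ) ^ n ^ 2 ≤ Nat.card {L : Fin n → Fin n → Fin n //
      (∀ i, Function.Injective (L i)) ∧ ∀ j, Function.Injective fun i => L i j} := by
  refine le_trans ?_ (Nat.cast_le.2 (Nat.card_le_card_of_injective
    (fun f : Rectangle n n => (⟨fun i => f.1 i, fun i => (f.1 i).injective, f.2⟩ :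
      {L : Fin n → Fin n → Fin n //
        (∀ i, Function.Injective (L i)) ∧ ∀ j, Function.Injective fun i => L i j}))
    fun f g h => Subtype.ext (funext fun i =>
      Equiv.coe_fn_injective (congrFun (congrArg Subtype.val h) i))))
  refine le_trans (le_of_eq ?_) (card_rectangle_ge n le_rfl)
  have hfact : ∏ i ∈ range n, ((n - i : ℕ) : ℝ) = n.factorial := by
    rw [← Nat.cast_prod, ← Finset.prod_range_reflect, ← Finset.prod_range_add_one_eq_factorial]
    congr 1
    exact Finset.prod_congr rfl fun i hi => by simp only [mem_range] at hi; omega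
  rw [Finset.prod_mul_distrib, Finset.prod_const, Finset.card_range, Finset.prod_pow,
    Finset.prod_div_distrib, hfact, Finset.prod_const, Finset.card_range, div_pow, ← pow_mul,
    two_mul, pow_add, sq]
  ring

end Fermat.Agent.Permanent
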